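import Fermat.Agent.S56.Tame.Ord

/-!
# S56 / TAME : [W-CYC]  (tame inertia is cyclic on a finite normal field with a uniformiser)
-/

set_option autoImplicit false

namespace Fermat.Agent.S56.TameAux

open CFT (Qb)

variable {q : ℕ} {A : ValuationSubring Qb}

/-- `σ x / x ≡ 1`. -/
def Wd (A : ValuationSubring Qb) (σ : GQ) (x : Qb) : Prop :=
  x ≠ 0 ∧ A.valuation (σ x - x) < A.valuation x

theorem Wd.mul {σ : GQ} {x y : Qb} (hx : Wd A σ x) (hy : Wd A σ y) : Wd A σ (x * y) := by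
  refine ⟨mul_ne_zero hx.1 hy.1, ?_⟩
  have hvx : 0 < A.valuation x := zero_lt_iff.2 ((Valuation.ne_zero_iff _).2 hx.1)
  have hvy : 0 < A.valuation y := zero_lt_iff.2 ((Valuation.ne_zero_iff _).2 hy.1)
  have : σ (x * y) - x * y = σ x * (σ y - y) + (σ x - x) * y := by
    rw [map_mul]; ring
  rw [this, map_mul A.valuation x y]
  refine (Valuation.map_add _ _ _).trans_lt (max_lt ?_ ?_)
  · rw [map_mul, val_apply_of_wild hx.2]
    exact mul_lt_mul_of_pos_left hy.2 hvx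
  · rw [map_mul]
    exact mul_lt_mul_of_pos_right hx.2 hvy

theorem Wd.inv {σ : GQ} {x : Qb} (hx : Wd A σ x) : Wd A σ x⁻¹ := by
  refine ⟨inv_ne_zero hx.1, ?_⟩
  have hvx : 0 < A.valuation x := zero_lt_iff.2 ((Valuation.ne_zero_iff _).2 hx.1)
  have hσx : σ x ≠ 0 := by simpa using hx.1
  have : σ x⁻¹ - x⁻¹ = -(σ x - x) * ((σ x)⁻¹ * x⁻¹) := by
    have hx0 := hx.1
    rw [map_inv₀]
    field_simp
    ring
  rw [this, map_mul, Valuation.map_neg, map_mul, map_inv₀, map_inv₀, val_apply_of_wild hx.2,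
    ← mul_assoc]
  have h1 : A.valuation (σ x - x) * (A.valuation x)⁻¹ < 1 := by
    rw [mul_inv_lt_iff₀ hvx, one_mul]
    exact hx.2
  calc A.valuation (σ x - x) * (A.valuation x)⁻¹ * (A.valuation x)⁻¹
      < 1 * (A.valuation x)⁻¹ := mul_lt_mul_of_pos_right h1 (inv_pos.2 hvx)
    _ = (A.valuation x)⁻¹ := one_mul _

theorem Wd.one (σ : GQ) : Wd A σ 1 := ⟨one_ne_zero, by simp⟩

theorem Wd.pow {σ : GQ} {x : Qb} (hx : Wd A σ x) (n : ℕ) : Wd A σ (x ^ n) := by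
  induction n with
  | zero => rw [pow_zero]; exact Wd.one σ
  | succ n ih => rw [pow_succ]; exact ih.mul hx

theorem Wd.zpow {σ : GQ} {x : Qb} (hx : Wd A σ x) (n : ℤ) : Wd A σ (x ^ n) := by
  cases n with
  | ofNat n => simpa using hx.pow n
  | negSucc n => rw [zpow_negSucc]; exact (hx.pow (n + 1)).inv

theorem Wd.of_unit {σ : GQ} (hσ : σ ∈ A.inertiaSubgroupIn ℚ) {u : Qb} (hu : A.valuation u = 1) :
    Wd A σ u := by
  refine ⟨fun h => by simp [h] at hu, ?_⟩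
  rw [hu]
  exact Bridge.valuation_sub_lt_one_of_mem_inertia hσ hu.le

theorem wild_of_uniformizer {L : IntermediateField ℚ Qb} {π : Qb} (hπ : π ≠ 0)
    (hgen : ∀ x ∈ L, x ≠ 0 → ∃ (n : ℤ) (u : Qb), u ∈ L ∧ A.valuation u = 1 ∧ x = π ^ n * u)
    {σ : GQ} (hσ : σ ∈ A.inertiaSubgroupIn ℚ) (h : A.valuation (σ π - π) < A.valuation π) :
    ∀ x ∈ L, x ≠ 0 → A.valuation (σ x - x) < A.valuation x := by
  intro x hx hx0
  obtain ⟨n, u, -, hu, rfl⟩ := hgen x hx hx0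
  exact ((Wd.zpow ⟨hπ, h⟩ n).mul (Wd.of_unit hσ hu)).2

theorem val_apply_inertia {σ : GQ} (hσ : σ ∈ A.inertiaSubgroupIn ℚ) (x : Qb) :
    A.valuation (σ x) = A.valuation x :=
  Bridge.valuation_apply_of_mem_decomposition (Bridge.mem_decomposition_of_mem_inertia hσ) x

theorem val_pairing {σ : GQ} (hσ : σ ∈ A.inertiaSubgroupIn ℚ) {x : Qb} (hx : x ≠ 0) :
    A.valuation (σ x / x) = 1 := by
  rw [map_div₀, val_apply_inertia hσ]
  exact div_self ((Valuation.ne_zero_iff _).2 hx)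

/-- (P1) -/
theorem val_pairing_mul {σ τ : GQ} (hσ : σ ∈ A.inertiaSubgroupIn ℚ)
    (hτ : τ ∈ A.inertiaSubgroupIn ℚ) {x : Qb} (hx : x ≠ 0) :
    A.valuation ((σ * τ) x / x - (σ x / x) * (τ x / x)) < 1 := by
  have h1 : (σ * τ) x / x - (σ x / x) * (τ x / x) = (σ (τ x / x) - τ x / x) * (σ x / x) := by
    have hσx : σ x ≠ 0 := by simpa using hx
    rw [AlgEquiv.mul_apply, map_div₀]
    field_simp
  rw [h1, map_mul, val_pairing hσ hx, mul_one]
  exact Bridge.valuation_sub_lt_one_of_mem_inertia hσ (val_pairing hτ hx).le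

theorem residue_eq_iff {a b : A} :
    IsLocalRing.residue A a = IsLocalRing.residue A b ↔ A.valuation ((a : Qb) - b) < 1 := by
  rw [← sub_eq_zero, ← map_sub, IsLocalRing.residue_eq_zero_iff, A.valuation_lt_one_iff]
  rfl

/-- the tame character attached to `π`. -/
noncomputable def theta (A : ValuationSubring Qb) {π : Qb} (hπ : π ≠ 0) :
    ↥(A.inertiaSubgroupIn ℚ) →* IsLocalRing.ResidueField A where
  toFun σ := IsLocalRing.residue A
    ⟨(σ : GQ) π / π, (A.valuation_le_one_iff _).1 (val_pairing σ.2 hπ).le⟩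
  map_one' := by
    rw [← map_one (IsLocalRing.residue A), residue_eq_iff]
    simp [div_self hπ]
  map_mul' σ τ := by
    rw [← map_mul, residue_eq_iff]
    exact val_pairing_mul σ.2 τ.2 hπ

theorem theta_eq_one_iff {π : Qb} (hπ : π ≠ 0) (σ : ↥(A.inertiaSubgroupIn ℚ)) :
    theta A hπ σ = 1 ↔ A.valuation ((σ : GQ) π - π) < A.valuation π := by
  have hv : 0 < A.valuation π := zero_lt_iff.2 ((Valuation.ne_zero_iff _).2 hπ)
  rw [← map_one (IsLocalRing.residue A)]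
  change IsLocalRing.residue A _ = _ ↔ _
  rw [residue_eq_iff]
  have : ((σ : GQ) π / π - 1) = ((σ : GQ) π - π) / π := by field_simp
  simp only [OneMemClass.coe_one]
  rw [this, map_div₀, div_lt_one₀ hv]

/-- [W-CYC] for a field with a uniformiser. -/
theorem exists_generator (L : IntermediateField ℚ Qb) [FiniteDimensional ℚ L] (hL : Normal ℚ L)
    {π : Qb} (hπL : π ∈ L) (hπ : π ≠ 0)
    (hgen : ∀ x ∈ L, x ≠ 0 → ∃ (n : ℤ) (u : Qb), u ∈ L ∧ A.valuation u = 1 ∧ x = π ^ n * u) :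
    ∃ σ₀ ∈ A.inertiaSubgroupIn ℚ, ∀ σ ∈ A.inertiaSubgroupIn ℚ, ∃ n : ℕ,
      σ * (σ₀ ^ n)⁻¹ ∈ A.inertiaSubgroupIn ℚ ∧
      ∀ x ∈ L, x ≠ 0 → A.valuation ((σ * (σ₀ ^ n)⁻¹) x - x) < A.valuation x := by
  have := hL
  set θ := (theta A hπ).toHomUnits with hθ
  have hθ1 : ∀ σ, θ σ = 1 ↔ A.valuation ((σ : GQ) π - π) < A.valuation π := by
    intro σ
    rw [← theta_eq_one_iff hπ σ, Units.ext_iff, hθ, MonoidHom.coe_toHomUnits, Units.val_one]
  let r : ↥(A.inertiaSubgroupIn ℚ) →* (L ≃ₐ[ℚ] L) :=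
    (AlgEquiv.restrictNormalHom L).comp (A.inertiaSubgroupIn ℚ).subtype
  have hle : r.ker ≤ θ.ker := by
    intro σ hσ
    rw [MonoidHom.mem_ker] at hσ ⊢
    rw [hθ1]
    have h2 := AlgEquiv.restrictNormal_commutes (σ : GQ) L ⟨π, hπL⟩
    have h3 : (σ : GQ).restrictNormal L = 1 := hσ
    rw [h3] at h2
    have h4 : (σ : GQ) π = π := h2.symm
    rw [h4, sub_self, map_zero]
    exact zero_lt_iff.2 ((Valuation.ne_zero_iff _).2 hπ)
  have hfr : Finite r.range := inferInstance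
  have hfi : r.ker.FiniteIndex := Subgroup.finiteIndex_ker r
  have : θ.ker.FiniteIndex := Subgroup.finiteIndex_of_le hle
  have hfq : Finite (↥(A.inertiaSubgroupIn ℚ) ⧸ θ.ker) := Subgroup.finite_quotient_of_finiteIndex
  have hcyc : IsCyclic (↥(A.inertiaSubgroupIn ℚ) ⧸ θ.ker) :=
    isCyclic_of_injective_ringHom
      ((Units.coeHom (IsLocalRing.ResidueField A)).comp (QuotientGroup.kerLift θ))
      (Units.val_injective.comp (QuotientGroup.kerLift_injective θ))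
  obtain ⟨g, hg⟩ := hcyc.exists_generator
  obtain ⟨σ₀, rfl⟩ := QuotientGroup.mk_surjective g
  refine ⟨σ₀, σ₀.2, fun σ hσ => ?_⟩
  have h1 := hg (QuotientGroup.mk ⟨σ, hσ⟩)
  rw [← mem_powers_iff_mem_zpowers] at h1
  obtain ⟨n, hn⟩ := h1
  refine ⟨n, ?_⟩
  set τ : ↥(A.inertiaSubgroupIn ℚ) := ⟨σ, hσ⟩ * (σ₀ ^ n)⁻¹ with hτ
  have hτker : τ ∈ θ.ker := by
    rw [← QuotientGroup.eq_one_iff, hτ, QuotientGroup.mk_mul, QuotientGroup.mk_inv,
      QuotientGroup.mk_pow]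
    simp only at hn
    rw [hn, mul_inv_cancel]
  have hτc : (τ : GQ) = σ * ((σ₀ : GQ) ^ n)⁻¹ := by
    rw [hτ]; simp
  rw [← hτc]
  refine ⟨τ.2, wild_of_uniformizer hπ hgen τ.2 ?_⟩
  exact (hθ1 τ).1 hτker

end Fermat.Agent.S56.TameAux
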