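import Fermat.Agent.S56.Defs
import Fermat.Agent.Common.PlaceBridgeLocal
import Fermat.Agent.Common.PlaceBridgeSplit
import Fermat.Agent.S56.Tame.Cyc

/-!
# S56 / TAME : tame inertia is pro-cyclic and Frobenius acts on it by `q`-th powers.  ELEMENTARY (valuation subring `A` of `ℚbar`, `Common/PlaceBridge*`).

`A | q`, `v = A.valuation`, `I = A.inertiaSubgroupIn ℚ ≤ D = A.decompositionSubgroup ℚ`.  Known (namespace `Fermat.Agent.Bridge`):
`valuation_apply_of_mem_decomposition` (`v (σ x) = v x`, `σ ∈ D`), `valuation_sub_lt_one_of_mem_inertia` (`v (σ x - x) < 1` for `σ ∈ I`, `v x ≤ 1`), `exists_pow_apply_eq`, `exists_galois_model`, `exists_lift_inertia`, ...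

PAIRING `⟨σ, x⟩ := σ x / x` (a unit of `A`) mod `m_A`; `σ ∈ I`, `x ≠ 0`.
 (P1) `⟨σ τ, x⟩ ≡ ⟨σ, x⟩ ⟨τ, x⟩`  [`σ τ x / x = σ (τ x / x) * (σ x / x)` and `σ u ≡ u` for the unit `u = τ x / x`];  (P2) multiplicative in `x`;  (P3) `⟨σ, u⟩ ≡ 1` for units `u`.
`WildOn A L σ` : `σ ∈ I` and `v (σ x - x) < v x` for all `0 ≠ x ∈ L`  (i.e. `⟨σ, x⟩ ≡ 1`).  By (P1) products and powers of wild elements are wild if `σ L = L`.
 [W-ORD] `σ` with all powers `σ^j` satisfying `v (σ^j y - y) < v y` for the `y` in the `ℚ`-span of the orbit of `x`  ⟹ `σ^(q^a) x = x` for some `a`.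
   Proof: `σ^n x = x`, `n = q^a m`, `q ∤ m`, `τ = σ^(q^a)`, `τ^m x = x`.  `T = ∑_{i<m} τ^i x`, `y = x - T/m`: `∑_{i<m} τ^i y = 0`; if `y ≠ 0`: `τ^i y = y (1 + ε_i)`, `v ε_i < 1`, so `0 = y (m + ∑ ε_i)`, but `v m = 1`: contradiction.  So `x = T/m` is fixed by `τ`.
 [W-UNIF] `L/ℚ` finite normal: there is `π ∈ L`, `π ≠ 0` such that every `0 ≠ x ∈ L` is `π^n u`, `n : ℤ`, `v u = 1`, `u ∈ L`  (number field model `Bridge.exists_galois_model`, uniformiser of `primeBelow`).  Hence (P2),(P3): `σ ∈ I`, `v (σ π - π) < v π` ⟹ `WildOn A L σ`.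
 [W-CYC] `θ : I → κ(A)ˣ`, `σ ↦ ⟨σ, π⟩` is a homomorphism (P1) with finite image (`σ π` runs through the conjugates of `π`): a finite subgroup of the multiplicative group of a field is cyclic: `θ(I) = ⟨θ σ₀⟩`.
   For `σ ∈ I`: `θ σ = θ σ₀ ^ n`, `τ := σ σ₀^(-n) ∈ ker θ` is wild on `L`, so `τ^(q^a)` fixes `L` pointwise ([W-ORD], a common `a` for a basis), `h τ ^ (q^a) = 1`, `h τ = 1` (`q ∤ #H`).
 [W-FROB] `φ` Frobenius, `σ ∈ I`: `⟨φ σ φ⁻¹, x⟩ = φ (⟨σ, φ⁻¹ x⟩) ≡ ⟨σ, φ⁻¹ x⟩^q ≡ ⟨σ, x⟩^q ≡ ⟨σ^q, x⟩` (`φ⁻¹ x / x` is a unit: (P2),(P3)).  So `φ σ φ⁻¹ σ^(-q)` is wild on every `L`.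
-/

set_option autoImplicit false

namespace Fermat.Agent.S56

open CFT (Qb)

variable {q : ℕ} {A : ValuationSubring Qb}

/-- `σ ∈ I` acts trivially on `x ↦ σ x / x mod m` for `x ∈ L` -/
def WildOn (A : ValuationSubring Qb) (L : IntermediateField ℚ Qb) (σ : GQ) : Prop :=
  σ ∈ A.inertiaSubgroupIn ℚ ∧ ∀ x ∈ L, x ≠ 0 → A.valuation (σ x - x) < A.valuation x

/-! ### helpers for TAME-P -/

theorem tameP_val_apply {σ : GQ} (hσ : σ ∈ A.inertiaSubgroupIn ℚ) (x : Qb) :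
    A.valuation (σ x) = A.valuation x :=
  Bridge.valuation_apply_of_mem_decomposition (Bridge.mem_decomposition_of_mem_inertia hσ) x

theorem tameP_val_pos {x : Qb} (hx : x ≠ 0) : 0 < A.valuation x :=
  zero_lt_iff.2 ((A.valuation.ne_zero_iff).2 hx)

/-- inertia moves a unit `u` by less than `1` -/
theorem tameP_unit {σ : GQ} (hσ : σ ∈ A.inertiaSubgroupIn ℚ) {u : Qb} (hu : A.valuation u = 1) :
    A.valuation (σ u - u) < A.valuation u := by
  rw [hu]
  exact Bridge.valuation_sub_lt_one_of_mem_inertia hσ hu.le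

/-- the relation `v (g x - h x) < v x` is multiplicative in `x` -/
theorem tameP_rel_mul {g h : GQ} (hg : g ∈ A.decompositionSubgroup ℚ)
    (hh : h ∈ A.decompositionSubgroup ℚ) {x y : Qb}
    (hx : A.valuation (g x - h x) < A.valuation x) (hy : A.valuation (g y - h y) < A.valuation y) :
    A.valuation (g (x * y) - h (x * y)) < A.valuation (x * y) := by
  have e : g (x * y) - h (x * y) = g x * (g y - h y) + (g x - h x) * h y := by
    rw [map_mul, map_mul]; ring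
  have hx0 : 0 < A.valuation x := lt_of_le_of_lt zero_le hx
  have hy0 : 0 < A.valuation y := lt_of_le_of_lt zero_le hy
  rw [e, map_mul A.valuation x y]
  refine lt_of_le_of_lt (A.valuation.map_add _ _) (max_lt ?_ ?_)
  · rw [map_mul, Bridge.valuation_apply_of_mem_decomposition hg]
    exact mul_lt_mul_of_pos_left hy hx0
  · rw [map_mul, Bridge.valuation_apply_of_mem_decomposition hh]
    exact mul_lt_mul_of_pos_right hx hy0

theorem tameP_rel_inv {g h : GQ} (hg : g ∈ A.decompositionSubgroup ℚ)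
    (hh : h ∈ A.decompositionSubgroup ℚ) {x : Qb}
    (hx : A.valuation (g x - h x) < A.valuation x) :
    A.valuation (g x⁻¹ - h x⁻¹) < A.valuation x⁻¹ := by
  have hx0 : 0 < A.valuation x := lt_of_le_of_lt zero_le hx
  have hxne : x ≠ 0 := (A.valuation.ne_zero_iff).1 hx0.ne'
  have hgx : g x ≠ 0 := by simpa using hxne
  have hhx : h x ≠ 0 := by simpa using hxne
  have e : g x⁻¹ - h x⁻¹ = -(g x - h x) * ((g x)⁻¹ * (h x)⁻¹) := by
    rw [map_inv₀, map_inv₀]; field_simp; ring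
  rw [e, map_mul, Valuation.map_neg, map_mul, map_inv₀, map_inv₀, map_inv₀,
    Bridge.valuation_apply_of_mem_decomposition hg, Bridge.valuation_apply_of_mem_decomposition hh]
  have h1 : A.valuation (g x - h x) * ((A.valuation x)⁻¹ * (A.valuation x)⁻¹) <
      A.valuation x * ((A.valuation x)⁻¹ * (A.valuation x)⁻¹) :=
    mul_lt_mul_of_pos_right hx (mul_pos (inv_pos.2 hx0) (inv_pos.2 hx0))
  rwa [← mul_assoc (A.valuation x), mul_inv_cancel₀ hx0.ne', one_mul] at h1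

theorem tameP_rel_pow {g h : GQ} (hg : g ∈ A.decompositionSubgroup ℚ)
    (hh : h ∈ A.decompositionSubgroup ℚ) {x : Qb}
    (hx : A.valuation (g x - h x) < A.valuation x) (n : ℕ) :
    A.valuation (g (x ^ n) - h (x ^ n)) < A.valuation (x ^ n) := by
  induction n with
  | zero => simp
  | succ n ih => rw [pow_succ]; exact tameP_rel_mul hg hh ih hx

theorem tameP_rel_zpow {g h : GQ} (hg : g ∈ A.decompositionSubgroup ℚ)
    (hh : h ∈ A.decompositionSubgroup ℚ) {x : Qb}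
    (hx : A.valuation (g x - h x) < A.valuation x) (n : ℤ) :
    A.valuation (g (x ^ n) - h (x ^ n)) < A.valuation (x ^ n) := by
  obtain ⟨m, rfl | rfl⟩ := n.eq_nat_or_neg
  · rw [zpow_natCast]; exact tameP_rel_pow hg hh hx m
  · rw [zpow_neg, zpow_natCast]; exact tameP_rel_inv hg hh (tameP_rel_pow hg hh hx m)

theorem tameP_apply_mem {L : IntermediateField ℚ Qb} (hL : Normal ℚ L) (σ : GQ) {x : Qb}
    (hx : x ∈ L) : σ x ∈ L := by
  have h := (IntermediateField.normal_iff_forall_map_eq'.1 hL) σ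
  rw [← h]
  exact ⟨x, hx, rfl⟩

theorem tameP_conj_mem {φ σ : GQ} (hφ : φ ∈ A.decompositionSubgroup ℚ)
    (hσ : σ ∈ A.inertiaSubgroupIn ℚ) : φ * σ * φ⁻¹ ∈ A.inertiaSubgroupIn ℚ := by
  obtain ⟨s, hs, rfl⟩ := Subgroup.mem_map.1 hσ
  have hn : (A.inertiaSubgroup ℚ).Normal := by
    unfold ValuationSubring.inertiaSubgroup
    exact MonoidHom.normal_ker _
  have h1 := hn.conj_mem s hs ⟨φ, hφ⟩
  refine Subgroup.mem_map.2 ⟨_, h1, ?_⟩
  rw [map_mul, map_mul, map_inv]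
  rfl

theorem tameP_frob {φ : GQ} (hφ : A.IsFrobeniusAt φ q) {w : Qb} (hw : A.valuation w ≤ 1) :
    A.valuation (φ w - w ^ q) < 1 := by
  obtain ⟨hD, hF⟩ := hφ
  have hwA : w ∈ A := (A.valuation_le_one_iff w).1 hw
  have h2 := hF (IsLocalRing.residue A ⟨w, hwA⟩)
  have h3 : IsLocalRing.residue A ((⟨φ, hD⟩ : A.decompositionSubgroup ℚ) • (⟨w, hwA⟩ : A)) =
      IsLocalRing.residue A ((⟨w, hwA⟩ : A) ^ q) := by
    rw [map_pow, ← h2]; rfl
  have h4 : ((⟨φ, hD⟩ : A.decompositionSubgroup ℚ) • (⟨w, hwA⟩ : A)) - (⟨w, hwA⟩ : A) ^ q ∈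
      IsLocalRing.maximalIdeal A := by
    rw [← IsLocalRing.residue_eq_zero_iff, map_sub, h3, sub_self]
  exact (A.valuation_lt_one_iff _).1 h4

/-- congruence mod the maximal ideal is compatible with powers -/
theorem tameP_pow_congr {a b : Qb} (ha : A.valuation a ≤ 1) (hb : A.valuation b ≤ 1)
    (h : A.valuation (a - b) < 1) (n : ℕ) : A.valuation (a ^ n - b ^ n) < 1 := by
  induction n with
  | zero => simp
  | succ n ih =>
    have e : a ^ (n + 1) - b ^ (n + 1) = a ^ n * (a - b) + (a ^ n - b ^ n) * b := by ring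
    rw [e]
    refine lt_of_le_of_lt (A.valuation.map_add _ _) (max_lt ?_ ?_)
    · rw [map_mul, map_pow]
      exact lt_of_le_of_lt (mul_le_of_le_one_left zero_le (pow_le_one₀ zero_le ha)) h
    · rw [map_mul]
      exact lt_of_le_of_lt (mul_le_of_le_one_right zero_le hb) ih

/-- (P1) -/
theorem valuation_pairing_mul {σ τ : GQ} (hσ : σ ∈ A.inertiaSubgroupIn ℚ)
    (hτ : τ ∈ A.inertiaSubgroupIn ℚ) {x : Qb} (hx : x ≠ 0) :
    A.valuation ((σ * τ) x / x - (σ x / x) * (τ x / x)) < 1 := by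
  have hx0 := tameP_val_pos (A := A) hx
  have hu : A.valuation (τ x / x) = 1 := by
    rw [map_div₀, tameP_val_apply hτ, div_self hx0.ne']
  have e : (σ * τ) x / x - (σ x / x) * (τ x / x) = (σ (τ x / x) - τ x / x) * (σ x / x) := by
    rw [AlgEquiv.mul_apply, map_div₀]
    have : σ x ≠ 0 := by simpa using hx
    field_simp
  rw [e, map_mul, map_div₀ A.valuation (σ x), tameP_val_apply hσ, div_self hx0.ne', mul_one]
  exact Bridge.valuation_sub_lt_one_of_mem_inertia hσ hu.le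

/-- pairing of a power -/
theorem tameP_pairing_pow {σ : GQ} (hσ : σ ∈ A.inertiaSubgroupIn ℚ) {x : Qb} (hx : x ≠ 0) (n : ℕ) :
    A.valuation ((σ ^ n) x / x - (σ x / x) ^ n) < 1 := by
  have hx0 := tameP_val_pos (A := A) hx
  have hu : A.valuation (σ x / x) = 1 := by
    rw [map_div₀, tameP_val_apply hσ, div_self hx0.ne']
  induction n with
  | zero => simp [div_self hx]
  | succ n ih =>
    have h1 := valuation_pairing_mul ((A.inertiaSubgroupIn ℚ).pow_mem hσ n) hσ hx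
    have e : (σ ^ (n + 1)) x / x - (σ x / x) ^ (n + 1) =
        ((σ ^ n * σ) x / x - ((σ ^ n) x / x) * (σ x / x)) +
          ((σ ^ n) x / x - (σ x / x) ^ n) * (σ x / x) := by
      rw [pow_succ σ n]; ring
    rw [e]
    refine lt_of_le_of_lt (A.valuation.map_add _ _) (max_lt h1 ?_)
    rw [map_mul, hu, mul_one]
    exact ih

theorem WildOn.mul {L : IntermediateField ℚ Qb} (hL : Normal ℚ L) {σ τ : GQ} (hσ : WildOn A L σ)
    (hτ : WildOn A L τ) : WildOn A L (σ * τ) := by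
  refine ⟨(A.inertiaSubgroupIn ℚ).mul_mem hσ.1 hτ.1, fun x hx hx0 => ?_⟩
  have e : (σ * τ) x - x = (σ (τ x) - τ x) + (τ x - x) := by
    rw [AlgEquiv.mul_apply]; ring
  rw [e]
  refine lt_of_le_of_lt (A.valuation.map_add _ _) (max_lt ?_ (hτ.2 x hx hx0))
  have := hσ.2 (τ x) (tameP_apply_mem hL τ hx) (by simpa using hx0)
  rwa [tameP_val_apply hτ.1] at this

theorem WildOn.pow {L : IntermediateField ℚ Qb} (hL : Normal ℚ L) {σ : GQ} (hσ : WildOn A L σ)
    (n : ℕ) : WildOn A L (σ ^ n) := by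
  induction n with
  | zero =>
    refine ⟨by rw [pow_zero]; exact (A.inertiaSubgroupIn ℚ).one_mem, fun x _ hx0 => ?_⟩
    rw [pow_zero, AlgEquiv.one_apply, sub_self, map_zero]
    exact tameP_val_pos hx0
  | succ n ih => rw [pow_succ]; exact WildOn.mul hL ih hσ

/-- [W-ORD] -/
theorem WildOn.exists_pow_fix (hq : q.Prime) (hA : A.LiesOverPrime q) {L : IntermediateField ℚ Qb}
    [FiniteDimensional ℚ L] (hL : Normal ℚ L) {σ : GQ} (hσ : WildOn A L σ) :
    ∃ a : ℕ, ∀ x ∈ L, (σ ^ (q ^ a)) x = x :=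
  TameAux.exists_pow_fix hq hA hL hσ.2

/-- [W-UNIF] -/
theorem exists_uniformizer_field (hq : q.Prime) (hA : A.LiesOverPrime q) (L : IntermediateField ℚ Qb)
    [FiniteDimensional ℚ L] (hL : Normal ℚ L) :
    ∃ π ∈ L, π ≠ 0 ∧ ∀ x ∈ L, x ≠ 0 → ∃ (n : ℤ) (u : Qb), u ∈ L ∧ A.valuation u = 1 ∧ x = π ^ n * u := by
  have hgal : IsGalois ℚ L := ⟨⟩
  obtain ⟨N, i1, i2, i3, ψ, hψ⟩ := Bridge.exists_galois_model_aux L
    (algebraMap L Qb) (fun x => x ∈ L) (fun x => ⟨by rintro ⟨y, rfl⟩; exact y.2,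
      fun h => ⟨⟨x, h⟩, rfl⟩⟩)
  set v := Bridge.placeBelow ψ hq A hA with hvdef
  have hv : v.asIdeal = Bridge.primeBelow ψ A := rfl
  obtain ⟨π, hπ⟩ := v.valuation_exists_uniformizer N
  have hπ0 : π ≠ 0 := by
    rintro rfl
    rw [map_zero] at hπ
    exact WithZero.exp_ne_zero hπ.symm
  refine ⟨ψ π, (hψ _).1 ⟨π, rfl⟩, (map_ne_zero ψ).2 hπ0, fun x hx hx0 => ?_⟩
  obtain ⟨y, rfl⟩ := (hψ x).2 hx
  have hy0 : y ≠ 0 := (map_ne_zero ψ).1 hx0
  have h0 : v.valuation N y ≠ 0 := ((v.valuation N).ne_zero_iff).mpr hy0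
  set n : ℤ := - WithZero.log (v.valuation N y) with hn
  have hpn : π ^ n ≠ 0 := zpow_ne_zero _ hπ0
  refine ⟨n, ψ (y / π ^ n), (hψ _).1 ⟨_, rfl⟩, ?_, ?_⟩
  · rw [Bridge.valuation_eq_one_iff hv, map_div₀, map_zpow₀, hπ, ← WithZero.exp_zsmul]
    have : v.valuation N y = WithZero.exp (n • (-1 : ℤ)) := by
      rw [hn]; simp [WithZero.exp_log h0]
    rw [this, div_self]
    exact WithZero.exp_ne_zero
  · rw [← map_zpow₀, ← map_mul]
    congr 1
    field_simp

theorem wildOn_of_uniformizer {L : IntermediateField ℚ Qb} {π : Qb} (hπ : π ≠ 0)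
    (hgen : ∀ x ∈ L, x ≠ 0 → ∃ (n : ℤ) (u : Qb), u ∈ L ∧ A.valuation u = 1 ∧ x = π ^ n * u)
    {σ : GQ} (hσ : σ ∈ A.inertiaSubgroupIn ℚ) (h : A.valuation (σ π - π) < A.valuation π) :
    WildOn A L σ := by
  refine ⟨hσ, fun x hx hx0 => ?_⟩
  obtain ⟨n, u, -, hu, rfl⟩ := hgen x hx hx0
  have hD := Bridge.mem_decomposition_of_mem_inertia hσ
  have h1 : (1 : GQ) ∈ A.decompositionSubgroup ℚ := Subgroup.one_mem _
  exact tameP_rel_mul (g := σ) (h := 1) hD h1 (tameP_rel_zpow (g := σ) (h := 1) hD h1 h n)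
    (tameP_unit hσ hu)

/-- [W-CYC], field form -/
theorem exists_inertia_generator (hq : q.Prime) (hA : A.LiesOverPrime q) (L : IntermediateField ℚ Qb)
    [FiniteDimensional ℚ L] (hL : Normal ℚ L) :
    ∃ σ₀ ∈ A.inertiaSubgroupIn ℚ, ∀ σ ∈ A.inertiaSubgroupIn ℚ, ∃ n : ℕ, WildOn A L (σ * (σ₀ ^ n)⁻¹) := by
  obtain ⟨π, hπL, hπ, hgen⟩ := exists_uniformizer_field hq hA L hL
  exact TameAux.exists_generator L hL hπL hπ hgen

/-- [W-FROB], field form -/
theorem wildOn_frob_conj (hq : q.Prime) (hA : A.LiesOverPrime q) (L : IntermediateField ℚ Qb)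
    {φ : GQ} (hφ : A.IsFrobeniusAt φ q) {σ : GQ} (hσ : σ ∈ A.inertiaSubgroupIn ℚ) :
    WildOn A L (φ * σ * φ⁻¹ * (σ ^ q)⁻¹) := by
  have hφD := hφ.mem_decompositionSubgroup
  have hφD' : φ⁻¹ ∈ A.decompositionSubgroup ℚ := Subgroup.inv_mem _ hφD
  have hg : φ * σ * φ⁻¹ ∈ A.inertiaSubgroupIn ℚ := tameP_conj_mem hφD hσ
  have hh : σ ^ q ∈ A.inertiaSubgroupIn ℚ := Subgroup.pow_mem _ hσ q
  -- main claim
  have key : ∀ y : Qb, y ≠ 0 →
      A.valuation ((φ * σ * φ⁻¹) y - (σ ^ q) y) < A.valuation y := by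
    intro y hy
    have hy0 := tameP_val_pos (A := A) hy
    set z : Qb := φ⁻¹ y with hz
    have hz0 : z ≠ 0 := by simpa [hz] using hy
    have hφz : φ z = y := by rw [hz, ← AlgEquiv.mul_apply, mul_inv_cancel, AlgEquiv.one_apply]
    have hvz : A.valuation z = A.valuation y :=
      Bridge.valuation_apply_of_mem_decomposition hφD' y
    have hz0' := tameP_val_pos (A := A) hz0
    -- w = ⟨σ, z⟩, w' = ⟨σ, y⟩
    set w : Qb := σ z / z with hw
    set w' : Qb := σ y / y with hw'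
    have hvw : A.valuation w = 1 := by
      rw [hw, map_div₀, tameP_val_apply hσ, div_self hz0'.ne']
    have hvw' : A.valuation w' = 1 := by
      rw [hw', map_div₀, tameP_val_apply hσ, div_self hy0.ne']
    -- step 1
    have s1 : (φ * σ * φ⁻¹) y / y = φ w := by
      rw [AlgEquiv.mul_apply, AlgEquiv.mul_apply, ← hz, hw, map_div₀, hφz]
    -- step 2
    have s2 : A.valuation (φ w - w ^ q) < 1 := tameP_frob hφ hvw.le
    -- step 3 : w ≡ w'
    have s3 : A.valuation (w - w') < 1 := by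
      set t : Qb := z / y with ht
      have hvt : A.valuation t = 1 := by rw [ht, map_div₀, hvz, div_self hy0.ne']
      have ht0 : t ≠ 0 := div_ne_zero hz0 hy
      have hzt : z = y * t := by rw [ht]; field_simp
      have hσy : σ y ≠ 0 := by simpa using hy
      have e : w - w' = w' * ((σ t - t) / t) := by
        rw [hw, hw', hzt, map_mul]; field_simp
      rw [e, map_mul, hvw', one_mul, map_div₀, hvt, div_one]
      exact Bridge.valuation_sub_lt_one_of_mem_inertia hσ hvt.le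
    have s3' : A.valuation (w ^ q - w' ^ q) < 1 := tameP_pow_congr hvw.le hvw'.le s3 q
    -- step 4
    have s4 : A.valuation ((σ ^ q) y / y - w' ^ q) < 1 := tameP_pairing_pow hσ hy q
    have e : (φ * σ * φ⁻¹) y - (σ ^ q) y =
        ((φ w - w ^ q) + (w ^ q - w' ^ q) - ((σ ^ q) y / y - w' ^ q)) * y := by
      rw [← s1]; field_simp; ring
    rw [e, map_mul]
    have : A.valuation ((φ w - w ^ q) + (w ^ q - w' ^ q) - ((σ ^ q) y / y - w' ^ q)) < 1 := by
      refine lt_of_le_of_lt (A.valuation.map_sub _ _) (max_lt ?_ s4)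
      exact lt_of_le_of_lt (A.valuation.map_add _ _) (max_lt s2 s3')
    calc _ < 1 * A.valuation y := mul_lt_mul_of_pos_right this hy0
      _ = _ := one_mul _
  refine ⟨Subgroup.mul_mem _ hg (Subgroup.inv_mem _ hh), fun x _ hx0 => ?_⟩
  set y : Qb := (σ ^ q)⁻¹ x with hy
  have hy0 : y ≠ 0 := by simpa [hy] using hx0
  have hxy : (σ ^ q) y = x := by rw [hy, ← AlgEquiv.mul_apply, mul_inv_cancel, AlgEquiv.one_apply]
  have := key y hy0
  rw [hxy] at this
  rw [AlgEquiv.mul_apply, ← hy, ← hxy, tameP_val_apply hh, hxy]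
  exact this

end Fermat.Agent.S56
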