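import Fermat.Agent.S56.Tame.Basic

/-!
# S56 / TAME-MAIN : consequences of `Tame/Basic.lean` for homomorphisms, and `D = ⟨Frob⟩ I` (topologically).

`h : I →* M` (`M` any monoid), continuous (`hcont`), `h σ ^ N = 1` with `N` prime to `q`.  If `τ ∈ I` is wild on `L` then `τ^(q^a)` fixes `L`, so `h τ ^ (q^a) = 1 = h τ ^ N`, so `h τ = 1`.
[FROB-GEN]  `L` finite normal, model `K` (`Bridge.exists_galois_model`), `𝔓 = primeBelow`: `σ ∈ D` acts on the finite field `𝓞 K / 𝔓` by `x ↦ x^(q^n)`; `φ` acts by `x ↦ x^q`;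
 `(φ^n)⁻¹ σ |_K` is in the inertia group of `𝔓`, lift it to `τ ∈ I` by `Bridge.exists_lift_inertia`.
-/

set_option autoImplicit false

namespace Fermat.Agent.S56

open CFT (Qb)
open scoped NumberField Pointwise

variable {q : ℕ} {A : ValuationSubring Qb}

namespace TameAux

/-- an endomorphism of a finite field of characteristic `q` is a power of Frobenius -/
theorem exists_pow_of_ringHom_finite {k : Type*} [Field k] [Finite k] (q : ℕ) [hq : Fact q.Prime]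
    [CharP k q] (s : k →+* k) : ∃ n : ℕ, ∀ x, s x = x ^ (q ^ n) := by
  let _ := ZMod.algebra k q
  have hcomm : s.comp (algebraMap (ZMod q) k) = algebraMap (ZMod q) k := Subsingleton.elim _ _
  let s' : k →ₐ[ZMod q] k :=
    { s with commutes' := fun r => DFunLike.congr_fun hcomm r }
  obtain ⟨n, hn⟩ := (FiniteField.bijective_frobeniusAlgHom_pow (ZMod q) k).2 s'
  refine ⟨n, fun x => ?_⟩
  have h1 := DFunLike.congr_fun hn x
  simp only [AlgHom.coe_pow, FiniteField.coe_frobeniusAlgHom, pow_iterate, ZMod.card] at h1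
  exact h1.symm

/-- restriction of an automorphism of `ℚbar` to a Galois model -/
theorem exists_restrict {N : Type} [Field N] [NumberField N] [IsGalois ℚ N] (ψ : N →+* Qb)
    (g : GQ) : ∃ t : N ≃+* N, ∀ x, g (ψ x) = ψ (t x) := by
  let _ := ψ.toAlgebra
  refine ⟨(AlgEquiv.restrictNormal g N).toRingEquiv, fun x => ?_⟩
  exact (AlgEquiv.restrictNormal_commutes g N x).symm

theorem frob_pow_sub_mem_centre {φ : GQ} (hφ : A.IsFrobeniusAt φ q) (n : ℕ)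
    (b : integralClosure ℤ Qb) : (φ ^ n) • b - b ^ (q ^ n) ∈ S54.centre A := by
  induction n generalizing b with
  | zero => simp
  | succ n ih =>
    have h1 : (φ ^ (n + 1)) • b - b ^ (q ^ (n + 1)) =
        φ • ((φ ^ n) • b - b ^ (q ^ n)) + (φ • (b ^ (q ^ n)) - (b ^ (q ^ n)) ^ q) := by
      rw [pow_succ', mul_smul, smul_sub, pow_succ, pow_mul]
      ring
    rw [h1]
    refine Ideal.add_mem _ ?_ (Bridge.sub_pow_mem_centre_of_isFrobeniusAt hφ _)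
    have h2 := Bridge.smul_centre_of_mem_decomposition hφ.mem_decompositionSubgroup
    rw [← h2]
    exact (Ideal.smul_mem_pointwise_smul_iff).mpr (ih b)

end TameAux

/-- inertia is normal in the decomposition group -/
theorem conj_mem_inertia (hq : q.Prime) (hA : A.LiesOverPrime q) {g σ : GQ}
    (hg : g ∈ A.decompositionSubgroup ℚ) (hσ : σ ∈ A.inertiaSubgroupIn ℚ) :
    g * σ * g⁻¹ ∈ A.inertiaSubgroupIn ℚ := by
  rw [Bridge.mem_inertia_iff hq hA]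
  intro b
  have h1 : (g * σ * g⁻¹) • b - b = g • (σ • (g⁻¹ • b) - g⁻¹ • b) := by
    rw [smul_sub, mul_smul, mul_smul, smul_inv_smul]
  rw [h1, ← Bridge.smul_centre_of_mem_decomposition hg]
  exact (Ideal.smul_mem_pointwise_smul_iff).mpr (Bridge.sub_mem_centre_of_mem_inertia hσ _)

theorem exists_isFrobeniusAt (hq : q.Prime) (hA : A.LiesOverPrime q) : ∃ φ : GQ, A.IsFrobeniusAt φ q :=
  S54.exists_isFrobeniusAt_of_liesOverPrime hq A hA

/-- **[FROB-GEN]** -/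
theorem exists_frob_pow_mul_inertia (hq : q.Prime) (hA : A.LiesOverPrime q) {φ : GQ}
    (hφ : A.IsFrobeniusAt φ q) (L : IntermediateField ℚ Qb) [FiniteDimensional ℚ L] {σ : GQ}
    (hσ : σ ∈ A.decompositionSubgroup ℚ) :
    ∃ (n : ℕ) (τ : GQ), τ ∈ A.inertiaSubgroupIn ℚ ∧ ∀ x ∈ L, σ x = (φ ^ n * τ) x := by
  obtain ⟨N, _, _, _, ψ, hψ⟩ := Bridge.exists_galois_model L
  obtain ⟨s, hs⟩ := TameAux.exists_restrict ψ σ
  set P := Bridge.primeBelow ψ A with hP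
  have hqP : (q : 𝓞 N) ∈ P := Bridge.natCast_mem_primeBelow ψ hA
  have hmax : P.IsMaximal := Bridge.isMaximal_of_natCast_mem hq P hqP
  have hP0 : P ≠ ⊥ := by
    intro h
    rw [h, Ideal.mem_bot] at hqP
    exact hq.ne_zero (by exact_mod_cast hqP)
  let _ : Field (𝓞 N ⧸ P) := Ideal.Quotient.field P
  have hfin : Finite (𝓞 N ⧸ P) := Ideal.finiteQuotientOfFreeOfNeBot P hP0
  have hchar : CharP (𝓞 N ⧸ P) q := by
    rw [CharP.charP_iff_prime_eq_zero hq]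
    have : (Ideal.Quotient.mk P) (q : 𝓞 N) = 0 := Ideal.Quotient.eq_zero_iff_mem.mpr hqP
    simpa using this
  have hfact : Fact q.Prime := ⟨hq⟩
  have hle : P ≤ P.comap (NumberField.RingOfIntegers.mapRingEquiv s : 𝓞 N →+* 𝓞 N) := by
    intro c hc
    exact (Bridge.mem_primeBelow_iff_of_mem_decomposition hs hσ c).mp hc
  obtain ⟨n, hn⟩ := TameAux.exists_pow_of_ringHom_finite q (Ideal.quotientMap P _ hle)
  have hn' : ∀ c : 𝓞 N, σ • Bridge.intHom ψ c - (Bridge.intHom ψ c) ^ (q ^ n) ∈ S54.centre A := by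
    intro c
    have h1 := hn (Ideal.Quotient.mk P c)
    rw [Ideal.quotientMap_mk, ← map_pow, Ideal.Quotient.eq] at h1
    rw [Bridge.smul_intHom hs, ← map_pow, ← map_sub]
    exact h1
  have hφn : φ ^ n ∈ A.decompositionSubgroup ℚ :=
    Subgroup.pow_mem _ hφ.mem_decompositionSubgroup n
  obtain ⟨t, ht⟩ := TameAux.exists_restrict ψ ((φ ^ n)⁻¹ * σ)
  obtain ⟨τ, hτI, hτ⟩ := Bridge.exists_lift_inertia (φ := ψ) hq hA t (by
    intro c
    rw [Bridge.primeBelow, Ideal.mem_comap, map_sub, ← Bridge.smul_intHom ht]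
    have h1 : ((φ ^ n)⁻¹ * σ) • Bridge.intHom ψ c - Bridge.intHom ψ c =
        (φ ^ n)⁻¹ • ((σ • Bridge.intHom ψ c - (Bridge.intHom ψ c) ^ (q ^ n)) -
          ((φ ^ n) • Bridge.intHom ψ c - (Bridge.intHom ψ c) ^ (q ^ n))) := by
      rw [sub_sub_sub_cancel_right, smul_sub, mul_smul, inv_smul_smul]
    rw [h1, ← Bridge.smul_centre_of_mem_decomposition (Subgroup.inv_mem _ hφn)]
    exact (Ideal.smul_mem_pointwise_smul_iff).mpr
      (Ideal.sub_mem _ (hn' c) (TameAux.frob_pow_sub_mem_centre hφ n _)))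
  refine ⟨n, τ, hτI, fun x hx => ?_⟩
  obtain ⟨y, rfl⟩ := hψ x hx
  rw [AlgEquiv.mul_apply, hτ, ← ht, AlgEquiv.mul_apply]
  exact ((φ ^ n).apply_symm_apply _).symm

namespace TameAux

/-- a continuous homomorphism of prime-to-`q` exponent kills the wild elements -/
theorem map_eq_one_of_wildOn (hq : q.Prime) (hA : A.LiesOverPrime q) {M : Type} [Monoid M]
    (h : ↥(A.inertiaSubgroupIn ℚ) →* M) {L : IntermediateField ℚ Qb} [FiniteDimensional ℚ L]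
    (hL : Normal ℚ L)
    (hcont : ∀ σ : ↥(A.inertiaSubgroupIn ℚ), (∀ x ∈ L, (σ : GQ) x = x) → h σ = 1)
    (N : ℕ) (hN : Nat.Coprime N q) (htors : ∀ σ, h σ ^ N = 1)
    (τ : ↥(A.inertiaSubgroupIn ℚ)) (hτ : WildOn A L (τ : GQ)) : h τ = 1 := by
  obtain ⟨a, ha⟩ := hτ.exists_pow_fix hq hA hL
  have h1 : h τ ^ (q ^ a) = 1 := by
    rw [← map_pow]
    exact hcont _ (fun x hx => by simpa using ha x hx)
  have h2 := pow_gcd_eq_one.mpr ⟨htors τ, h1⟩
  rw [Nat.Coprime.pow_right a hN, pow_one] at h2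
  exact h2

/-- enlarge the field of continuity to a normal one -/
theorem exists_normal_cont {M : Type} [Monoid M] (h : ↥(A.inertiaSubgroupIn ℚ) →* M)
    (hcont : ∃ L : IntermediateField ℚ Qb, FiniteDimensional ℚ L ∧
      ∀ σ : ↥(A.inertiaSubgroupIn ℚ), (∀ x ∈ L, (σ : GQ) x = x) → h σ = 1) :
    ∃ L : IntermediateField ℚ Qb, FiniteDimensional ℚ L ∧ Normal ℚ L ∧
      ∀ σ : ↥(A.inertiaSubgroupIn ℚ), (∀ x ∈ L, (σ : GQ) x = x) → h σ = 1 := by
  obtain ⟨L, hfin, hL⟩ := hcont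
  refine ⟨IntermediateField.normalClosure ℚ L Qb, normalClosure.is_finiteDimensional ℚ L Qb,
    normalClosure.normal ℚ L Qb, fun σ hσ => hL σ (fun x hx => hσ x ?_)⟩
  exact IntermediateField.le_normalClosure L hx

end TameAux

/-- **[TAME-a]** the image of inertia is cyclic -/
theorem tame_cyclic (hq : q.Prime) (hA : A.LiesOverPrime q) {M : Type} [Monoid M]
    (h : ↥(A.inertiaSubgroupIn ℚ) →* M)
    (hcont : ∃ L : IntermediateField ℚ Qb, FiniteDimensional ℚ L ∧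
      ∀ σ : ↥(A.inertiaSubgroupIn ℚ), (∀ x ∈ L, (σ : GQ) x = x) → h σ = 1)
    (N : ℕ) (hN : Nat.Coprime N q) (htors : ∀ σ, h σ ^ N = 1) :
    ∃ σ₀, ∀ σ, ∃ n : ℕ, h σ = h σ₀ ^ n := by
  obtain ⟨L, hfin, hL, hc⟩ := TameAux.exists_normal_cont h hcont
  obtain ⟨σ₀, hσ₀, hgen⟩ := exists_inertia_generator hq hA L hL
  refine ⟨⟨σ₀, hσ₀⟩, fun σ => ?_⟩
  obtain ⟨n, hn⟩ := hgen σ σ.2
  refine ⟨n, ?_⟩
  have h1 := TameAux.map_eq_one_of_wildOn hq hA h hL hc N hN htors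
    (σ * ((⟨σ₀, hσ₀⟩ : ↥(A.inertiaSubgroupIn ℚ)) ^ n)⁻¹) hn
  have h2 : σ = (σ * ((⟨σ₀, hσ₀⟩ : ↥(A.inertiaSubgroupIn ℚ)) ^ n)⁻¹) * ⟨σ₀, hσ₀⟩ ^ n := by
    rw [inv_mul_cancel_right]
  conv_lhs => rw [h2]
  rw [map_mul, h1, one_mul, map_pow]

/-- **[TAME-b]** Frobenius acts by `q`-th powers -/
theorem tame_frob (hq : q.Prime) (hA : A.LiesOverPrime q) {M : Type} [Monoid M]
    (h : ↥(A.inertiaSubgroupIn ℚ) →* M)
    (hcont : ∃ L : IntermediateField ℚ Qb, FiniteDimensional ℚ L ∧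
      ∀ σ : ↥(A.inertiaSubgroupIn ℚ), (∀ x ∈ L, (σ : GQ) x = x) → h σ = 1)
    (N : ℕ) (hN : Nat.Coprime N q) (htors : ∀ σ, h σ ^ N = 1)
    {φ : GQ} (hφ : A.IsFrobeniusAt φ q) (σ : ↥(A.inertiaSubgroupIn ℚ))
    (hσ : φ * (σ : GQ) * φ⁻¹ ∈ A.inertiaSubgroupIn ℚ) :
    h ⟨φ * (σ : GQ) * φ⁻¹, hσ⟩ = h σ ^ q := by
  obtain ⟨L, hfin, hL, hc⟩ := TameAux.exists_normal_cont h hcont
  have hw := wildOn_frob_conj hq hA L hφ σ.2
  have h1 := TameAux.map_eq_one_of_wildOn hq hA h hL hc N hN htors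
    ((⟨φ * (σ : GQ) * φ⁻¹, hσ⟩ : ↥(A.inertiaSubgroupIn ℚ)) * (σ ^ q)⁻¹) hw
  have h2 : (⟨φ * (σ : GQ) * φ⁻¹, hσ⟩ : ↥(A.inertiaSubgroupIn ℚ)) =
      ((⟨φ * (σ : GQ) * φ⁻¹, hσ⟩ : ↥(A.inertiaSubgroupIn ℚ)) * (σ ^ q)⁻¹) * σ ^ q := by
    rw [inv_mul_cancel_right]
  conv_lhs => rw [h2]
  rw [map_mul, h1, one_mul, map_pow]

end Fermat.Agent.S56
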