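import Fermat.Agent.S56.Defs
import Fermat.Agent.Common.PlaceBridgeLocal
import Fermat.Agent.Common.PlaceBridgeSplit

/-!
# S56 / TAME : [W-ORD]  (wild elements have `q`-power order on a finite normal field)
-/

set_option autoImplicit false

namespace Fermat.Agent.S56.TameAux

open CFT (Qb)

variable {q : ℕ} {A : ValuationSubring Qb}

theorem apply_mem {L : IntermediateField ℚ Qb} (hL : Normal ℚ L) (σ : GQ) {x : Qb} (hx : x ∈ L) :
    σ x ∈ L :=
  (IntermediateField.normal_iff_forall_map_le'.1 hL σ) ⟨x, hx, rfl⟩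

theorem pow_apply_mem {L : IntermediateField ℚ Qb} (hL : Normal ℚ L) (σ : GQ) (k : ℕ) {x : Qb}
    (hx : x ∈ L) : (σ ^ k) x ∈ L := apply_mem hL (σ ^ k) hx

theorem val_apply_of_wild {σ : GQ} {x : Qb} (h : A.valuation (σ x - x) < A.valuation x) :
    A.valuation (σ x) = A.valuation x := by
  have : σ x = x + (σ x - x) := by ring
  rw [this]
  exact Valuation.map_add_eq_of_lt_left _ h

theorem wild_mul {L : IntermediateField ℚ Qb} (hL : Normal ℚ L) {σ τ : GQ}
    (hσ : ∀ x ∈ L, x ≠ 0 → A.valuation (σ x - x) < A.valuation x)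
    (hτ : ∀ x ∈ L, x ≠ 0 → A.valuation (τ x - x) < A.valuation x) :
    ∀ x ∈ L, x ≠ 0 → A.valuation ((σ * τ) x - x) < A.valuation x := by
  intro x hx hx0
  have h1 := hτ x hx hx0
  have hτx0 : τ x ≠ 0 := by simpa using hx0
  have h2 := hσ (τ x) (apply_mem hL τ hx) hτx0
  rw [val_apply_of_wild h1] at h2
  have : (σ * τ) x - x = (σ (τ x) - τ x) + (τ x - x) := by
    rw [AlgEquiv.mul_apply]; ring
  rw [this]
  exact (Valuation.map_add _ _ _).trans_lt (max_lt h2 h1)

theorem wild_pow {L : IntermediateField ℚ Qb} (hL : Normal ℚ L) {σ : GQ}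
    (hσ : ∀ x ∈ L, x ≠ 0 → A.valuation (σ x - x) < A.valuation x) (k : ℕ) :
    ∀ x ∈ L, x ≠ 0 → A.valuation ((σ ^ k) x - x) < A.valuation x := by
  induction k with
  | zero =>
    intro x _ hx0
    simpa using zero_lt_iff.2 ((Valuation.ne_zero_iff A.valuation).2 hx0)
  | succ k ih =>
    rw [pow_succ]
    exact wild_mul hL ih hσ

theorem exists_pow_fix_field (L : IntermediateField ℚ Qb) [FiniteDimensional ℚ L]
    (hL : Normal ℚ L) (σ : GQ) : ∃ n : ℕ, 0 < n ∧ ∀ x ∈ L, (σ ^ n) x = x := by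
  have := hL
  refine ⟨Nat.card (L ≃ₐ[ℚ] L), Nat.card_pos, fun x hx => ?_⟩
  have h1 : AlgEquiv.restrictNormalHom L (σ ^ Nat.card (L ≃ₐ[ℚ] L)) = 1 := by
    rw [map_pow, pow_card_eq_one']
  have h2 := AlgEquiv.restrictNormal_commutes (σ ^ Nat.card (L ≃ₐ[ℚ] L)) L ⟨x, hx⟩
  have h3 : (σ ^ Nat.card (L ≃ₐ[ℚ] L)).restrictNormal L = 1 := h1
  rw [h3] at h2
  exact h2.symm

theorem val_natCast_eq_one (hq : q.Prime) (hA : A.LiesOverPrime q) {m : ℕ} (hm : ¬ q ∣ m) :
    A.valuation (m : Qb) = 1 := by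
  have hv : ∀ z : ℤ, A.valuation (z : Qb) ≤ 1 := fun z =>
    (A.valuation_le_one_iff _).2 (intCast_mem A z)
  have hq1 : A.valuation (q : Qb) < 1 := (ValuationSubring.mem_nonunits_iff A).1 hA
  have hcop : IsCoprime (m : ℤ) (q : ℤ) :=
    Nat.isCoprime_iff_coprime.2 ((Nat.Prime.coprime_iff_not_dvd hq).2 hm).symm
  obtain ⟨a, b, hab⟩ := hcop
  have hm1 : A.valuation (m : Qb) ≤ 1 := by
    have := hv m
    rwa [Int.cast_natCast] at this
  refine le_antisymm hm1 (not_lt.1 fun hlt => ?_)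
  have h1 : (1 : Qb) = (a : Qb) * (m : Qb) + (b : Qb) * (q : Qb) := by
    have := congrArg (fun z : ℤ => (z : Qb)) hab
    push_cast at this
    exact this.symm
  have h2 : A.valuation (1 : Qb) < 1 := by
    rw [h1]
    refine (Valuation.map_add _ _ _).trans_lt (max_lt ?_ ?_)
    · rw [map_mul]
      exact (mul_le_of_le_one_left' (hv a)).trans_lt hlt
    · rw [map_mul]
      exact (mul_le_of_le_one_left' (hv b)).trans_lt hq1
  simp at h2

/-- [W-ORD] -/
theorem exists_pow_fix (hq : q.Prime) (hA : A.LiesOverPrime q) {L : IntermediateField ℚ Qb}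
    [FiniteDimensional ℚ L] (hL : Normal ℚ L) {σ : GQ}
    (hσ : ∀ x ∈ L, x ≠ 0 → A.valuation (σ x - x) < A.valuation x) :
    ∃ a : ℕ, ∀ x ∈ L, (σ ^ (q ^ a)) x = x := by
  obtain ⟨n, hn, hfix⟩ := exists_pow_fix_field L hL σ
  obtain ⟨a, m, hm, rfl⟩ := Nat.exists_eq_pow_mul_and_not_dvd hn.ne' q hq.ne_one
  refine ⟨a, fun x hx => ?_⟩
  set τ : GQ := σ ^ (q ^ a) with hτ
  have hτm : ∀ z ∈ L, (τ ^ m) z = z := fun z hz => by
    rw [hτ, ← pow_mul]; exact hfix z hz
  have hm0 : (m : Qb) ≠ 0 := by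
    have : m ≠ 0 := by rintro rfl; exact hm (dvd_zero q)
    exact_mod_cast this
  set T : Qb := ∑ i ∈ Finset.range m, (τ ^ i) x with hT
  have hTL : T ∈ L := sum_mem fun i _ => pow_apply_mem hL τ i hx
  have hτT : τ T = T := by
    have h1 : τ T = ∑ i ∈ Finset.range m, (τ ^ (i + 1)) x := by
      rw [hT, map_sum]
      refine Finset.sum_congr rfl fun i _ => ?_
      rw [pow_succ', AlgEquiv.mul_apply]
    have h2 := Finset.sum_range_succ (fun i => (τ ^ i) x) m
    have h3 := Finset.sum_range_succ' (fun i => (τ ^ i) x) m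
    rw [h2] at h3
    simp only [pow_zero, AlgEquiv.one_apply, hτm x hx] at h3
    rw [h1]
    exact (add_right_cancel h3).symm
  have hτiT : ∀ i : ℕ, (τ ^ i) T = T := by
    intro i
    induction i with
    | zero => simp
    | succ i ih => rw [pow_succ, AlgEquiv.mul_apply, hτT, ih]
  set y : Qb := x - T / m with hy
  have hyL : y ∈ L := sub_mem hx (div_mem hTL (natCast_mem L m))
  have hsum : ∑ i ∈ Finset.range m, (τ ^ i) y = 0 := by
    have : ∀ i ∈ Finset.range m, (τ ^ i) y = (τ ^ i) x - T / m := by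
      intro i _
      rw [hy, map_sub, map_div₀, hτiT, map_natCast]
    rw [Finset.sum_congr rfl this, Finset.sum_sub_distrib, Finset.sum_const, Finset.card_range,
      nsmul_eq_mul, ← hT]
    field_simp
    ring
  have hy0 : y = 0 := by
    by_contra hy0
    have hδ : ∀ i ∈ Finset.range m, A.valuation ((τ ^ i) y - y) < A.valuation y := by
      intro i _
      rw [hτ, ← pow_mul]
      exact wild_pow hL hσ _ y hyL hy0
    have h1 : A.valuation (∑ i ∈ Finset.range m, ((τ ^ i) y - y)) < A.valuation y :=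
      Valuation.map_sum_lt _ ((Valuation.ne_zero_iff _).2 hy0) hδ
    rw [Finset.sum_sub_distrib, hsum, Finset.sum_const, Finset.card_range, nsmul_eq_mul, zero_sub,
      Valuation.map_neg, map_mul, val_natCast_eq_one hq hA hm, one_mul] at h1
    exact lt_irrefl _ h1
  have hx' : x = T / m := sub_eq_zero.1 hy0
  rw [hx', map_div₀, hτT, map_natCast]

end Fermat.Agent.S56.TameAux
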